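import Fermat.Agent.FiniteFlat.Torsion
import Fermat.Agent.CongruenceRel.Assembly

/-!
# The kernel of reduction lies in the connected part

The model of `J₀(N)[m]` built from coordinates at a good place takes congruent values at `0` and
at classes with trivial reduction.
-/

set_option autoImplicit false

noncomputable section

open AlgebraicCurve ModularCurve GaloisRep
open FLTAgent.FFBasic FLTAgent.Density FLTAgent.Deuring FLTAgent.GoodReduction
open FLTAgent.FFRiemannRoch (divOf divOf_apply)
open FLTAgent.Deuring.Modular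

namespace FLTAgent.FiniteFlat

variable {ℓ : ℕ} [hℓ : Fact ℓ.Prime] {A : ValuationSubring Qbar} {N : ℕ}

/-- A model of `J₀(N)[m]` taking congruent values at `0` and at classes with trivial
reduction. -/
theorem exists_model_reduction [NeZero N] (hℓN : ¬ ℓ ∣ N) (hA : A.LiesOverPrime ℓ)
    (H : X0GoodReduction A (IsLocalRing.residue A) N) {m : ℕ} (hm : m ≠ 0) :
    ∃ H₀ : Subalgebra (ratLocalizedAt ℓ) (jTors N m → Qbar), IsFlatModel ℓ (torsAct N m) H₀ ∧
      ∀ x : jTors N m, reductionModL A N (x : JZero N) = 0 →
        ∀ f ∈ H₀, f x - f 0 ∈ A.nonunits := by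
  classical
  have : Finite (jTors N m) := (HeckeJacobian.finite_torsion_jZero (N := N) hm).to_subtype
  have hcont : GaloisFactorsThroughFiniteLevel (torsAct N m) := by
    choose L hLfd hL using fun x : jTors N m => GaloisAttach.openStabilizers N (x : JZero N)
    have : ∀ x, FiniteDimensional ℚ (L x) := hLfd
    refine ⟨⨆ x, L x, IntermediateField.finiteDimensional_iSup_of_finite, fun σ hσ => ?_⟩
    exact DFunLike.ext _ _ fun x => Subtype.ext (hL x σ fun y hy => hσ y (le_iSup L x hy))
  obtain ⟨κ, φ, hint, hfix, hsep, hred, hadd⟩ :=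
    exists_coordinates_jZero hℓN hA H (fun x : jTors N m => (x : JZero N))
  refine ⟨modelAlg (torsAct N m) hℓ.out hA φ,
    isFlatModel_modelAlg hℓ.out hA hcont φ hint
      (fun q τ hτ x => hfix τ hτ _ (fun y => rfl) q x) (fun x y h => Subtype.ext (hsep x y h))
      (fun q => hadd Prod.fst Prod.snd (fun p : jTors N m × jTors N m => p.1 + p.2)
        (fun p => rfl) q), fun x hx f hf => ?_⟩
  have hval : ∀ g ∈ twistSet (torsAct N m) A φ, ∀ z, g z ∈ A := by
    rintro g ⟨d, hd, i, rfl⟩ z
    exact (apply_mem_iff hd _).mpr (hint i _)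
  have key : ∀ g ∈ Algebra.adjoin A (twistSet (torsAct N m) A φ), g x - g 0 ∈ A.nonunits := by
    intro g hg
    induction hg using Algebra.adjoin_induction with
    | mem g hg =>
      obtain ⟨d, hd, i, rfl⟩ := hg
      show d (φ i (torsAct N m d⁻¹ x)) - d (φ i (torsAct N m d⁻¹ 0)) ∈ A.nonunits
      rw [← map_sub, map_zero, apply_mem_nonunits_iff hd]
      refine hred _ _ ?_ i
      show reductionModL A N (d⁻¹ • (x : JZero N)) = reductionModL A N ((0 : jTors N m) : JZero N)
      obtain ⟨h0, hI0⟩ := CongruenceRel.fibreInputs N hℓ.out hℓN A hA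
      rw [ZeroMemClass.coe_zero, map_zero, CongruenceRel.reduction_galois hI0 d⁻¹
        (CongruenceRel.apply_mem_of_decomposition (inv_mem hd))
        (MulSemiringAction.toRingEquiv (A.decompositionSubgroup ℚ) (IsLocalRing.ResidueField A)
          ⟨d⁻¹, inv_mem hd⟩) (fun a => rfl),
        hx]
      exact smul_zero (A := JZeroC (IsLocalRing.ResidueField A) N)
        (CongruenceRel.specialAut N (MulSemiringAction.toRingEquiv (A.decompositionSubgroup ℚ)
          (IsLocalRing.ResidueField A) ⟨d⁻¹, inv_mem hd⟩))
    | algebraMap a =>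
      rw [Pi.algebraMap_apply, Pi.algebraMap_apply, sub_self]
      exact A.nonunits.zero_mem
    | add a b _ _ ha hb =>
      rw [Pi.add_apply, Pi.add_apply, add_sub_add_comm]
      exact add_mem ha hb
    | mul a b hma hmb ha hb =>
      have hA' := apply_mem_of_mem_adjoin hval hma
      have hB' := apply_mem_of_mem_adjoin hval hmb
      rw [Pi.mul_apply, Pi.mul_apply, show a x * b x - a 0 * b 0 =
        a x * (b x - b 0) + (a x - a 0) * b 0 by ring]
      exact add_mem (by rw [mul_comm]; exact FFBasic.mul_mem_nonunits hb (hA' x))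
        (FFBasic.mul_mem_nonunits ha (hB' 0))
  exact key f hf.2

end FLTAgent.FiniteFlat
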