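import Fermat.Agent.TWPrimes.Flat.Setting
import Fermat.Agent.TWPrimes.LocalPlace
import Fermat.Agent.TateLocal.AtP
import Fermat.Agent.GaloisAttach.TraceFun
import Fermat.Agent.FiniteFlat.JZeroModel

/-!
# Unramified functionals and the connected part

A functional on a finite flat module killed by `p` which is invariant under inertia and under a
power of Frobenius kills the points congruent to the origin.
-/

set_option autoImplicit false

noncomputable section

open scoped IntermediateField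

namespace FLTAgent.FlatBound

open FLTAgent.LocalDuality FLTAgent.TWPrimes
open FLTAgent.Density (GalQ Qbar)

variable {p : ℕ} [Fact p.Prime]

/-- The field generated by a root of unity of order prime to `p` and one of order `p` is tame,
with `ζ - 1` of the size of a uniformiser. -/
theorem exists_tame_of_roots {ζ ω : PadicAlgCl p} (hζ : IsPrimitiveRoot ζ p) {n : ℕ}
    (hn : ¬ p ∣ n) (hω : IsPrimitiveRoot ω n) :
    ∃ (L K : IntermediateField ℚ_[p] (PadicAlgCl p)) (l : PadicAlgCl p) (e : ℕ),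
      FiniteDimensional ℚ_[p] L ∧ (∀ g : LocalGal p, ∀ x ∈ L, g x ∈ L) ∧ IsTame L K l e ∧
      ‖l‖ = ‖ζ - 1‖ ∧ ζ ∈ L ∧ ω ∈ L ∧ ω ∈ K := by
  classical
  have hp := (Fact.out : p.Prime)
  have : NeZero p := ⟨hp.ne_zero⟩
  have : NeZero n := ⟨fun h => hn (h ▸ dvd_zero p)⟩
  let S : Set (PadicAlgCl p) := {ζ, ω}
  have : Finite S := (Set.toFinite _).to_subtype
  set L := IntermediateField.adjoin ℚ_[p] S
  have : FiniteDimensional ℚ_[p] L :=
    IntermediateField.finiteDimensional_adjoin fun x _ => Algebra.IsIntegral.isIntegral x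
  have hζL : ζ ∈ L := IntermediateField.subset_adjoin ℚ_[p] S (Or.inl rfl)
  have hωL : ω ∈ L := IntermediateField.subset_adjoin ℚ_[p] S (Or.inr rfl)
  have hst : ∀ g : LocalGal p, ∀ x ∈ L, g x ∈ L := by
    intro g x hx
    induction hx using IntermediateField.adjoin_induction with
    | mem z hz =>
      rcases hz with rfl | rfl
      · obtain ⟨i, -, hi⟩ := hζ.eq_pow_of_pow_eq_one
          (show (g z) ^ p = 1 by rw [← map_pow, hζ.pow_eq_one, map_one])
        rw [← hi]; exact pow_mem hζL i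
      · obtain ⟨i, -, hi⟩ := hω.eq_pow_of_pow_eq_one
          (show (g z) ^ n = 1 by rw [← map_pow, hω.pow_eq_one, map_one])
        rw [← hi]; exact pow_mem hωL i
    | algebraMap a => rw [g.commutes]; exact IntermediateField.algebraMap_mem _ a
    | add x y _ _ hx hy => rw [map_add]; exact add_mem hx hy
    | inv x _ hx => rw [map_inv₀]; exact inv_mem hx
    | mul x y _ _ hx hy => rw [map_mul]; exact mul_mem hx hy
  obtain ⟨K, hK⟩ := exists_isUnramifiedPart L
  have hω1 : ‖ω‖ = 1 := (pow_eq_one_iff_of_nonneg (norm_nonneg _) (NeZero.ne n)).mp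
    (by rw [← norm_pow, hω.pow_eq_one, norm_one])
  have hωK : ω ∈ K :=
    hK.roots ω ⟨n, hn, hω.pow_eq_one⟩ (red_mem_residueSubfield L hωL hω1.le)
  have hfix : ∀ σ : LocalGal p, (∀ x ∈ K, σ x = x) → σ ζ = ζ → ∀ x ∈ L, σ x = x := by
    intro σ hσ hσζ x hx
    induction hx using IntermediateField.adjoin_induction with
    | mem z hz =>
      rcases hz with rfl | rfl
      · exact hσζ
      · exact hσ _ hωK
    | algebraMap a => exact σ.commutes a
    | add x y _ _ hx hy => rw [map_add, hx, hy]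
    | inv x _ hx => rw [map_inv₀, hx]
    | mul x y _ _ hx hy => rw [map_mul, hx, hy]
  have := finiteDimensional_of_le hK.le
  have hbound : ∀ ϖ m, IsTotRam K L ϖ m → m ≤ p - 1 := by
    intro ϖ m hT
    rw [← hT.card_conjRoots, ← Nat.totient_prime hp, ← hζ.card_primitiveRoots]
    have hr : ∀ r ∈ conjRoots K ϖ, ∃ σ : LocalGal p, (∀ x ∈ K, σ x = x) ∧ σ ϖ = r := fun r hr => by
      obtain ⟨σ, rfl⟩ := mem_conjRoots_iff.mp hr
      exact ⟨σ.restrictScalars ℚ_[p], fun x hx => σ.commutes ⟨x, hx⟩, rfl⟩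
    choose! σ hσK hσ using hr
    refine Finset.card_le_card_of_injOn (fun r => σ r ζ) (fun r _ => ?_) fun r hr r' hr' he => ?_
    · exact (mem_primitiveRoots hp.pos).mpr (hζ.map_of_injective (σ r).injective)
    · rw [Finset.mem_coe] at hr hr'
      have h1 := hfix ((σ r)⁻¹ * σ r') (fun x hx => by
          rw [AlgEquiv.mul_apply, hσK r' hr' x hx]
          conv_lhs =>
            rw [← hσK r hr x hx, ← AlgEquiv.mul_apply, inv_mul_cancel, AlgEquiv.one_apply])
        (by
          rw [AlgEquiv.mul_apply, ← show σ r ζ = σ r' ζ from he, ← AlgEquiv.mul_apply,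
            inv_mul_cancel, AlgEquiv.one_apply]) ϖ hT.mem
      have h2 := congrArg (σ r) h1
      rw [← AlgEquiv.mul_apply, mul_inv_cancel_left, hσ r hr, hσ r' hr'] at h2
      exact h2.symm
  obtain ⟨K', l, e, hL⟩ := exists_isTame L hst fun ϖ hϖ m hm hv hdvd => by
    have hT : IsTotRam K L ϖ m :=
      { pos := Nat.pos_of_ne_zero fun h0 => (norm_natCast_p_lt_one p).ne (by
          rw [← hm, h0, pow_zero])
        norm_pow := hm, values_base := hK.values, le := hK.le, mem := hϖ, values := hv,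
        residue := hK.residue.ge }
    have := hbound ϖ m hT
    have := Nat.le_of_dvd hT.pos hdvd
    have := hp.two_le
    omega
  have := finiteDimensional_of_le hL.unram.le
  obtain rfl : K' = K := le_antisymm (hK.mono hL.unram le_rfl) (hL.unram.mono hK le_rfl)
  refine ⟨L, K', l, e, inferInstance, hst, hL, ?_, hζL, hωL, hωK⟩
  have hne : ζ - 1 ≠ 0 := sub_ne_zero.mpr (hζ.ne_one hp.one_lt)
  obtain ⟨k, hk⟩ := hL.totRam.values _ (L.sub_mem hζL L.one_mem) hne
  have h2 := (norm_zeta_sub_one hζ).1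
  rw [hk, ← zpow_natCast, ← zpow_mul, ← hL.totRam.norm_pow, ← zpow_natCast] at h2
  have he := hL.totRam.zpow_inj h2
  have hle := hbound l e hL.totRam
  have hpos := hL.totRam.pos
  have h1 : k = 1 := by
    have hk0 : 1 ≤ k := by
      by_contra hk1
      push Not at hk1
      nlinarith
    nlinarith [show (e : ℤ) ≤ ((p - 1 : ℕ) : ℤ) by exact_mod_cast hle]
  rw [hk, h1, zpow_one]

/-- **Unramified functionals kill the points congruent to the origin.** -/
theorem functional_eq_zero_of_unramified (hp2 : p ≠ 2) {M : Type} [AddCommGroup M] [Finite M]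
    {act : GalQ →* AddMonoid.End M}
    {H₀ : Subalgebra (GaloisRep.ratLocalizedAt p) (M → Qbar)}
    (h₀ : FiniteFlat.IsFlatModel p act H₀) (φ : M →+ ZMod p)
    (hI : ∀ σ ∈ (padicPlace p).inertiaSubgroupIn ℚ, ∀ x, φ (act σ x) = φ x) {d : ℕ} (hd : 0 < d)
    {Φ : GalQ} (hΦ : (padicPlace p).IsFrobeniusAt Φ p)
    (hΦd : ∀ x, φ (act (Φ ^ d) x) = φ x) {x : M}
    (hx : ∀ f ∈ H₀, f x - f 0 ∈ (padicPlace p).nonunits) : φ x = 0 := by
  classical
  have hp := (Fact.out : p.Prime)
  have : NeZero p := ⟨hp.ne_zero⟩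
  have := Fintype.ofFinite M
  have hA := padicPlace_liesOverPrime p
  obtain ⟨hV, -, hb⟩ := padicFun_spec h₀
  have hxc : x ∈ hV.connectedPart := by
    rintro _ ⟨g, hg, rfl⟩
    show ‖padicEmbedding p (g x) - padicEmbedding p (g 0)‖ < 1
    rw [← map_sub, ← mem_padicPlace_nonunits_iff]
    exact hx g hg
  set N := p ^ d - 1 with hN
  have h2d : 2 ≤ p ^ d := le_trans hp.two_le (Nat.le_self_pow hd.ne' p)
  have hNp : ¬ p ∣ N := fun hdvd => by
    have h1 : p ∣ p ^ d := dvd_pow_self p hd.ne'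
    have h2 : p ∣ p ^ d - N := Nat.dvd_sub h1 hdvd
    rw [hN, Nat.sub_sub_self (by omega : 1 ≤ p ^ d)] at h2
    exact hp.ne_one (Nat.dvd_one.mp h2)
  have : NeZero N := ⟨by omega⟩
  obtain ⟨ω₀, hω₀⟩ := HasEnoughRootsOfUnity.exists_primitiveRoot Qbar N
  obtain ⟨ζ₀, hζ₀⟩ := HasEnoughRootsOfUnity.exists_primitiveRoot Qbar p
  set ι := padicEmbedding p
  have hι : Function.Injective ι := ι.toRingHom.injective
  obtain ⟨L, K, l, e, hLfd, hst, hL, hl, hζL, hωL, hωK⟩ :=
    exists_tame_of_roots (hζ₀.map_of_injective hι) hNp (hω₀.map_of_injective hι)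
  have := hLfd
  -- a number field seeing the action and `ω₀`
  obtain ⟨L₁, hL₁, hker, -⟩ := h₀.exists_valueField
  have := hL₁
  have := IntermediateField.adjoin.finiteDimensional (K := ℚ) (x := ω₀)
    (Algebra.IsIntegral.isIntegral ω₀)
  have : FiniteDimensional ℚ (L₁ ⊔ ℚ⟮ω₀⟯ : IntermediateField ℚ Qbar) :=
    IntermediateField.finiteDimensional_sup _ _
  set L₀ := IntermediateField.normalClosure ℚ (L₁ ⊔ ℚ⟮ω₀⟯ : IntermediateField ℚ Qbar) Qbar
  have : Normal ℚ L₀ := normalClosure.normal _ _ _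
  have : IsGalois ℚ L₀ := IsGalois.mk
  have hω₀L : ω₀ ∈ L₀ := IntermediateField.le_normalClosure _
    (le_sup_right (a := L₁) (IntermediateField.mem_adjoin_simple_self ℚ ω₀))
  have hfrobω : ∀ k, (Φ ^ k) ω₀ = ω₀ ^ p ^ k := by
    have h1 : Φ ω₀ = ω₀ ^ p := by
      obtain ⟨hdec, hfr⟩ := Density.isFrobeniusAt_iff.mp hΦ
      have hmem : ω₀ ∈ padicPlace p :=
        Density.mem_of_isIntegral _ (hω₀.isIntegral (NeZero.pos N))
      have hlt := (mem_padicPlace_nonunits_iff p).mp (hfr ω₀ hmem)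
      rw [map_sub] at hlt
      refine hι (eq_of_pow_eq_one_of_red_eq hNp ?_ ?_ ?_)
      · rw [← map_pow, ← map_pow, hω₀.pow_eq_one, map_one, map_one]
      · rw [← map_pow, ← pow_mul, mul_comm, pow_mul, hω₀.pow_eq_one, one_pow, map_one]
      · have hn : ∀ z : Qbar, z ^ N = 1 → ‖ι z‖ = 1 := fun z hz =>
          (pow_eq_one_iff_of_nonneg (norm_nonneg _) (NeZero.ne N)).mp
            (by rw [← norm_pow, ← map_pow, hz, map_one, norm_one])
        exact (red_eq_iff (hn _ (by rw [← map_pow, hω₀.pow_eq_one, map_one])).le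
          (hn _ (by rw [← pow_mul, mul_comm, pow_mul, hω₀.pow_eq_one, one_pow])).le).mpr hlt
    intro k
    induction k with
    | zero => simp
    | succ k ih => rw [pow_succ', AlgEquiv.mul_apply, ih, map_pow, h1, ← pow_mul, pow_succ']
  have hφL : ∀ σ : LocalGal p, (∀ z ∈ L, σ z = z) → ∀ y, φ (act (toGlobal p σ) y) = φ y := by
    intro σ hσ y
    set g := toGlobal p σ
    obtain ⟨k, s, hs, hg⟩ := exists_frobenius_pow_mul hA L₀ hΦ
      (localGaloisToGlobal_mem_decompositionSubgroup p σ)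
    have hact : act g = act (Φ ^ k * s) := by
      have h1 : act ((Φ ^ k * s)⁻¹ * g) = 1 := hker _ fun z hz => by
        rw [AlgEquiv.mul_apply,
          hg z (IntermediateField.le_normalClosure _ (le_sup_left (a := L₁) (b := ℚ⟮ω₀⟯) hz)),
          ← AlgEquiv.mul_apply, inv_mul_cancel, AlgEquiv.one_apply]
      calc act g = act ((Φ ^ k * s) * ((Φ ^ k * s)⁻¹ * g)) := by rw [mul_inv_cancel_left]
        _ = act (Φ ^ k * s) := by rw [map_mul act (Φ ^ k * s), h1, mul_one]
    have hgω : g ω₀ = ω₀ := hι (by rw [padicEmbedding_localGaloisToGlobal, hσ _ hωL])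
    have hsω : s ω₀ = ω₀ := FiniteFlat.inertia_fixes_goodRoots hA hs
      (c := ⟨ω₀, Density.mem_of_isIntegral _ (hω₀.isIntegral (NeZero.pos N))⟩)
      ⟨N, hNp, Subtype.ext hω₀.pow_eq_one⟩
    rw [hg ω₀ hω₀L, AlgEquiv.mul_apply, hsω, hfrobω] at hgω
    have hdk : d ∣ k := by
      have hωd : ∀ q : ℕ, ω₀ ^ (p ^ (d * q)) = ω₀ := fun q => by
        induction q with
        | zero => simp
        | succ q ih =>
          rw [Nat.mul_succ, pow_add p, pow_mul ω₀, ih]
          conv_lhs => rw [show p ^ d = N + 1 by omega, pow_succ, hω₀.pow_eq_one, one_mul]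
      have h1 : ω₀ ^ (p ^ (k % d)) = ω₀ := by
        rw [← Nat.div_add_mod k d, pow_add p, pow_mul ω₀, hωd] at hgω
        exact hgω
      rcases Nat.eq_zero_or_pos (k % d) with h0 | h0
      · exact Nat.dvd_of_mod_eq_zero h0
      exfalso
      have hlt : p ^ (k % d) < p ^ d := Nat.pow_lt_pow_right hp.one_lt (Nat.mod_lt k hd)
      have hge : 2 ≤ p ^ (k % d) := le_trans hp.two_le (Nat.le_self_pow h0.ne' p)
      have h2 : ω₀ ^ (p ^ (k % d) - 1) = 1 := mul_left_cancel₀ (hω₀.ne_zero (NeZero.ne N)) (by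
        rw [← pow_succ', Nat.sub_add_cancel (by omega), h1, mul_one])
      exact hω₀.pow_ne_one_of_pos_of_lt (by omega) (by omega) h2
    obtain ⟨q, rfl⟩ := hdk
    have hq : ∀ q : ℕ, ∀ z, φ (act (Φ ^ (d * q)) z) = φ z := fun q => by
      induction q with
      | zero => intro z; simp
      | succ q ih =>
        intro z
        rw [Nat.mul_succ, pow_add, map_mul]
        exact (ih _).trans (hΦd z)
    rw [hact, map_mul]
    exact (hq q _).trans (hI s hs y)
  obtain ⟨σ₀, hσ₀, hσ₀1⟩ := TateLocal.exists_inertia_cyc hp2 hA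
  obtain ⟨τ, hτ⟩ := exists_toGlobal p (Density.mem_inertiaSubgroupIn_iff.mp hσ₀).1
  have hτK : ∀ z ∈ K, τ z = z := (mem_inertiaAt_iff hL.unram).mp
    (isLocalInertia_le L ((isLocalInertia_iff p τ).mpr (by rw [hτ]; exact hσ₀)))
  set a := GaloisAttach.chiNat (GaloisAttach.cyc p) 1 σ₀
  have ha : σ₀ ζ₀ = ζ₀ ^ a :=
    GaloisAttach.apply_rootOfUnity p σ₀ (n := 1) (by rw [pow_one]; exact hζ₀.pow_eq_one)
  have ha1 : (a : ZMod p) ≠ 1 := fun h => hσ₀1 (by
    have h1 : PadicInt.toZMod (GaloisAttach.cyc p σ₀ - (a : ℤ_[p])) = 0 := by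
      rw [← RingHom.mem_ker, PadicInt.ker_toZMod, PadicInt.maximalIdeal_eq_span_p,
        ← pow_one (p : ℤ_[p]), ← PadicInt.ker_toZModPow, RingHom.mem_ker, map_sub, map_natCast,
        GaloisAttach.natCast_chiNat, sub_self]
    rw [map_sub, map_natCast, h, sub_eq_zero] at h1
    exact h1)
  exact hV.functional_eq_zero hb hst hL (hζ₀.map_of_injective hι) hl hζL φ hφL hτK
    (fun z => by rw [hτ]; exact hI σ₀ hσ₀ z)
    (a := a) (by rw [← padicEmbedding_localGaloisToGlobal, show toGlobal p τ = σ₀ from hτ, ha,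
      map_pow]) ha1 hxc

end FLTAgent.FlatBound
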