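import Fermat.Agent.ModularityLifting.EigenvalueP.Kernel
import Fermat.Agent.ModularityLifting.EigenvalueP.Connected
import Fermat.Agent.ModularityLifting.EigenvalueP.Local
import Fermat.Agent.ModularityLifting.FlatOfTrace
import Fermat.Agent.HeckeJacobian.HeckeCommute
import Mathlib.LinearAlgebra.Dual.Lemmas

/-!
# The Hecke eigenvalue at `p` of a strictly ordinary residual representation

At a level prime to `p`, a residual representation which is strictly ordinary with sign `ε` at `p`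
has `T_p` eigenvalue congruent to `ε`.
-/

set_option autoImplicit false

noncomputable section

open IsLocalRing ModularCurve MonoidAlgebra Matrix
open scoped Pointwise

namespace FLTAgent.ModularityLifting

open FLTAgent.GaloisAttach FLTAgent.FiniteFlat FLTAgent.DefRing FLTAgent.SemistableHecke
open FLTAgent.Density (Qbar GalQ)

/-- Without a common eigenvector some element has a commutator of nonzero determinant with an
element with two distinct diagonal entries. -/
theorem exists_commutator_det_ne_zero {k : Type} [Field k] {G : Type} [Group G]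
    (ρ : G →* Matrix (Fin 2) (Fin 2) k)
    (hirr : ∀ v : Fin 2 → k, (∀ σ, ∃ c : k, ρ σ *ᵥ v = c • v) → v = 0)
    (g : GL (Fin 2) k) {τ : G}
    (h10 : ((g : Matrix (Fin 2) (Fin 2) k) * ρ τ * (g⁻¹ : GL (Fin 2) k)) 1 0 = 0)
    (hne : ((g : Matrix (Fin 2) (Fin 2) k) * ρ τ * (g⁻¹ : GL (Fin 2) k)) 0 0 ≠
      ((g : Matrix (Fin 2) (Fin 2) k) * ρ τ * (g⁻¹ : GL (Fin 2) k)) 1 1) :
    ∃ σ, (ρ σ * ρ τ - ρ τ * ρ σ).det ≠ 0 := by
  set M : G → Matrix (Fin 2) (Fin 2) k :=
    fun σ => (g : Matrix (Fin 2) (Fin 2) k) * ρ σ * (g⁻¹ : GL (Fin 2) k) with hM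
  set a := M τ 0 0
  set b := M τ 0 1
  set d := M τ 1 1
  set t := b / (a - d)
  have had : a - d ≠ 0 := sub_ne_zero.mpr hne
  -- the diagonalising frame
  have hdet : (!![1, t; 0, 1] : Matrix (Fin 2) (Fin 2) k).det ≠ 0 := by
    simp [Matrix.det_fin_two]
  obtain ⟨u, hu⟩ := (Matrix.isUnit_iff_isUnit_det _).mpr (isUnit_iff_ne_zero.mpr hdet)
  set h : GL (Fin 2) k := u * g
  set N : G → Matrix (Fin 2) (Fin 2) k :=
    fun σ => (h : Matrix (Fin 2) (Fin 2) k) * ρ σ * (h⁻¹ : GL (Fin 2) k) with hN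
  have huinv : ((u⁻¹ : GL (Fin 2) k) : Matrix (Fin 2) (Fin 2) k) = !![1, -t; 0, 1] := by
    refine Units.inv_eq_of_mul_eq_one_right (u := u) ?_
    rw [hu]
    ext i j
    fin_cases i <;> fin_cases j <;> simp [Matrix.mul_apply, Fin.sum_univ_two]
  have hNτ : N τ = !![a, 0; 0, d] := by
    have e : N τ = (u : Matrix (Fin 2) (Fin 2) k) * M τ * (u⁻¹ : GL (Fin 2) k) := by
      simp only [N, M, h, _root_.mul_inv_rev, Units.val_mul, mul_assoc]
    have h10' : M τ 1 0 = 0 := h10
    rw [e, hu, huinv, Matrix.eta_fin_two (M τ), h10', Matrix.mul_fin_two, Matrix.mul_fin_two]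
    have ht : t * (a - d) = b := div_mul_cancel₀ b had
    ext i j
    fin_cases i <;> fin_cases j <;>
      simp only [Fin.zero_eta, Fin.mk_one, Matrix.of_apply, Matrix.cons_val',
        Matrix.cons_val_fin_one,
        Matrix.cons_val_zero, Matrix.cons_val_one]
    · simp only [a]; ring
    · simp only [a, b, d] at ht ⊢; linear_combination -ht
    · ring
    · simp only [d]; ring
  by_contra! hall
  have hzero : ∀ σ, N σ 0 1 * N σ 1 0 = 0 := fun σ => by
    have h0 : (N σ * N τ - N τ * N σ).det = 0 := by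
      have e : N σ * N τ - N τ * N σ = (h : Matrix (Fin 2) (Fin 2) k) *
          (ρ σ * ρ τ - ρ τ * ρ σ) * (h⁻¹ : GL (Fin 2) k) := by
        simp only [N, mul_sub, sub_mul, mul_assoc, Units.inv_mul_cancel_left]
      rw [e, Matrix.det_units_conj, hall σ]
    rw [hNτ, Matrix.det_fin_two] at h0
    simp only [Matrix.sub_apply, Matrix.mul_apply, Fin.sum_univ_two, Matrix.of_apply,
      Matrix.cons_val', Matrix.cons_val_fin_one, Matrix.cons_val_zero, Matrix.cons_val_one] at h0
    refine (mul_eq_zero.mp (show N σ 0 1 * N σ 1 0 * ((a - d) * (a - d)) = 0 from ?_)).resolve_right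
      (mul_ne_zero had had)
    linear_combination h0
  have hdetN : ∀ σ, (N σ).det ≠ 0 := fun σ => by
    rw [show N σ = _ from rfl, Matrix.det_units_conj]
    exact ((Group.isUnit σ).map ρ |>.map Matrix.detMonoidHom).ne_zero
  -- no line is stable
  have hline : ∀ j : Fin 2, ∃ σ, N σ (1 - j) j ≠ 0 := by
    intro j
    by_contra! hj
    let e : Fin 2 → k := Pi.single j 1
    have hv0 : ((h⁻¹ : GL (Fin 2) k) : Matrix (Fin 2) (Fin 2) k) *ᵥ e = 0 :=
      hirr _ fun σ => ⟨N σ j j, by
        have e1 : N σ *ᵥ e = N σ j j • e := by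
          funext i
          simp only [e, Matrix.mulVec_single_one, Matrix.col_apply, Pi.smul_apply, smul_eq_mul]
          by_cases hij : i = j
          · subst hij; simp
          · have hi : i = 1 - j := by revert hij; fin_cases i <;> fin_cases j <;> decide
            rw [Pi.single_eq_of_ne hij, mul_zero, hi, hj σ]
        have e2 : ρ σ * ((h⁻¹ : GL (Fin 2) k) : Matrix (Fin 2) (Fin 2) k) =
            ((h⁻¹ : GL (Fin 2) k) : Matrix (Fin 2) (Fin 2) k) * N σ := by
          simp only [N, mul_assoc, Units.inv_mul_cancel_left]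
        rw [Matrix.mulVec_mulVec, e2, ← Matrix.mulVec_mulVec, e1, Matrix.mulVec_smul]⟩
    have h1 := congrArg (fun v => (h : Matrix (Fin 2) (Fin 2) k) *ᵥ v) hv0
    simp only [Matrix.mulVec_mulVec, Units.mul_inv, Matrix.one_mulVec, Matrix.mulVec_zero] at h1
    exact one_ne_zero (α := k) (by simpa [e] using congrFun h1 j)
  obtain ⟨σ₁, h1⟩ := hline 0
  obtain ⟨σ₂, h2⟩ := hline 1
  rw [show (1 - 0 : Fin 2) = 1 from rfl] at h1
  rw [show (1 - 1 : Fin 2) = 0 from rfl] at h2
  have h1' : N σ₁ 0 1 = 0 := (mul_eq_zero.mp (hzero σ₁)).resolve_right h1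
  have h2' : N σ₂ 1 0 = 0 := (mul_eq_zero.mp (hzero σ₂)).resolve_left h2
  have hd1 := hdetN σ₁
  have hd2 := hdetN σ₂
  rw [Matrix.det_fin_two, h1', zero_mul, sub_zero] at hd1
  rw [Matrix.det_fin_two, h2', mul_zero, sub_zero] at hd2
  have hmul : N (σ₁ * σ₂) = N σ₁ * N σ₂ := by
    simp only [N, map_mul, mul_assoc, Units.inv_mul_cancel_left]
  have h3 := hzero (σ₁ * σ₂)
  rw [hmul, Matrix.mul_apply, Matrix.mul_apply, Fin.sum_univ_two, Fin.sum_univ_two, h1', h2',
    zero_mul, mul_zero, add_zero, add_zero] at h3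
  exact mul_ne_zero (mul_ne_zero (left_ne_zero_of_mul hd1) h2)
    (mul_ne_zero h1 (left_ne_zero_of_mul hd2)) h3

section Relation

variable {p : ℕ} [Fact p.Prime] {L : ℕ} [NeZero L]

/-- On `p`-torsion the reduction of `T_p` is that of Frobenius. -/
theorem reduction_frobenius_eq_hecke (hpL : ¬ p ∣ L) {A : ValuationSubring Qbar}
    (hA : A.LiesOverPrime p) {h : ReductionInputsModL A L}
    (hI : CongruenceRel.FibreInputs A L (placeReductionModL h)) {σ : GalQ}
    (hσ : A.IsFrobeniusAt σ p) {x : JZero L} (hx : p • x = 0) :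
    reductionModL A L (σ • x) =
      reductionModL A L (heckeOperatorBar L ⟨p, (Fact.out : p.Prime)⟩ x) := by
  obtain ⟨ρ, hρ⟩ := CongruenceRel.exists_frobeniusEquiv Fact.out hA
  rw [CongruenceRel.reduction_hecke_ell hI Fact.out hpL hA ρ hρ,
    CongruenceRel.reduction_frobenius hI ρ hρ hσ, natCast_zsmul]
  set y := reductionModL A L x
  have hy : p • y = 0 := by rw [← map_nsmul, hx, map_zero]
  have h0 : p • ((CongruenceRel.specialAut L ρ)⁻¹ • y) = 0 :=
    nsmul_smul_eq_zero (J := JZeroC (ResidueField A) L) (CongruenceRel.specialAut L ρ)⁻¹ hy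
  rw [h0, add_zero]

end Relation

section ResidualPart

variable {G R J A : Type} [Group G] [CommRing R] [AddCommGroup J] [Module R J]
  [DistribMulAction G J] [SMulCommClass G R J] [CommRing A] [IsLocalRing A]

/-- The `p`-torsion classes killed by the residual kernel of `lam`. -/
private def residualPart (p : ℕ) (lam : R →+* A) : AddSubgroup J where
  carrier := {x | p • x = 0 ∧ ∀ r : R, lam r ∈ maximalIdeal A → r • x = 0}
  zero_mem' := ⟨smul_zero p, fun r _ => smul_zero r⟩
  add_mem' := fun {x y} hx hy =>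
    ⟨by rw [nsmul_add, hx.1, hy.1, add_zero], fun r hr => by
      rw [smul_add, hx.2 r hr, hy.2 r hr, add_zero]⟩
  neg_mem' := fun {x} hx =>
    ⟨by rw [neg_nsmul, hx.1, neg_zero], fun r hr => by rw [smul_neg, hx.2 r hr, neg_zero]⟩

/-- The residual part is residual. -/
private theorem isResidual_residualPart {p : ℕ} (hfin : {x : J | p • x = 0}.Finite)
    (lam : R →+* A) : EigenvalueP.IsResidual (G := G) p lam (residualPart (J := J) p lam) :=
  ⟨hfin.subset fun _ hx => hx.1, fun _ hx => hx.1, fun g x hx =>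
    ⟨nsmul_smul_eq_zero (J := J) g hx.1, fun r hr => by
      rw [← smul_comm g r x, hx.2 r hr]; exact smul_zero (A := J) g⟩,
    fun r hr _ hx => hx.2 r hr⟩

/-- A system detected on the torsion classes has nonzero residual part. -/
private theorem residualPart_ne_bot {p c : ℕ} (hfin : {x : J | p • x = 0}.Finite) (lam : R →+* A)
    (hkill : ∀ (k : ℕ) (t : R), (∀ x : J, (p ^ (k + c)) • x = 0 → t • x = 0) →
      lam t ∈ maximalIdeal A ^ k) : residualPart (J := J) p lam ≠ ⊥ := fun hbot => by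
  let W : Submodule R J :=
    { carrier := {x | p • x = 0}
      zero_mem' := smul_zero p
      add_mem' := fun {x y} hx hy => by
        rw [Set.mem_ofPred_eq] at hx hy ⊢; rw [nsmul_add, hx, hy, add_zero]
      smul_mem' := fun r x hx => by
        rw [Set.mem_ofPred_eq] at hx ⊢; rw [smul_comm, hx, smul_zero] }
  obtain ⟨r, hr, hid⟩ := EigenvalueP.exists_smul_eq_self ((maximalIdeal A).comap lam) W hfin
    fun x hx hk => (AddSubgroup.eq_bot_iff_forall _).mp hbot x ⟨hx, fun r hr => hk r hr⟩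
  have hpow : ∀ (j : ℕ) (x : J), (p ^ j) • x = 0 → (r - 1) ^ j • x = 0 := by
    intro j
    induction j with
    | zero => intro x hx; rw [pow_zero, one_nsmul] at hx; rw [hx, smul_zero]
    | succ j ih =>
      intro x hx
      have h1 : (p ^ j) • x ∈ W := by
        show p • (p ^ j) • x = 0
        rw [← mul_smul, ← pow_succ', hx]
      have h3 : (p ^ j) • (r - 1) • x = 0 := by
        rw [smul_comm, sub_smul, one_smul, hid _ h1, sub_self]
      rw [pow_succ, mul_smul, ih _ h3]
  have hk := hkill 1 ((r - 1) ^ (1 + c)) fun x hx => hpow (1 + c) x hx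
  rw [pow_one] at hk
  have h4 : lam (r - 1) ∈ maximalIdeal A :=
    (maximalIdeal.isMaximal A).isPrime.mem_of_pow_mem (1 + c) (by rw [← map_pow]; exact hk)
  rw [map_sub, map_one] at h4
  exact (maximalIdeal.isMaximal A).ne_top ((Ideal.eq_top_iff_one _).mpr (by
    have := sub_mem (show lam r ∈ maximalIdeal A from hr) h4
    rwa [sub_sub_cancel] at this))

variable {p : ℕ} [Fact p.Prime] [IsAdicComplete (maximalIdeal A) A] [Finite (ResidueField A)]
  {hpI : (p : A) ∈ maximalIdeal A} {χ : G →* ℤ_[p]} {lam : R →+* A} {c : ℕ}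
  {ρ : G →* Matrix (Fin 2) (Fin 2) A}

/-- An element with residually invertible matrix maps the residual part onto itself. -/
private theorem exists_act_sub_eq (Lk : Transfer.Linked (J := J) χ lam hpI c ρ)
    (hV : EigenvalueP.IsResidual (G := G) p lam (residualPart (J := J) p lam)) (h2 : IsUnit (2 : A))
    {X : MonoidAlgebra ℤ G} {r : R} (hdet : IsUnit (Transfer.mat G A ρ X - lam r • 1).det)
    {x : J} (hx : x ∈ residualPart p lam) :
    ∃ y ∈ residualPart p lam, Transfer.act G J X y - r • y = x := by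
  have : Finite (residualPart (J := J) p lam) := hV.finite.to_subtype
  let f : residualPart (J := J) p lam →+ residualPart (J := J) p lam := AddMonoidHom.mk'
    (fun y => ⟨Transfer.act G J X (y : J) - r • (y : J),
      sub_mem (EigenvalueP.act_mem hV X y.2)
        ⟨by rw [smul_comm, hV.torsion _ y.2, smul_zero],
          fun r' hr' => by rw [smul_comm, hV.killed r' hr' _ y.2, smul_zero]⟩⟩)
    fun a b => Subtype.ext (by
      show Transfer.act G J X ((a : J) + b) - r • ((a : J) + b) = _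
      rw [map_add, smul_add, add_sub_add_comm]
      rfl)
  have hf : Function.Injective f := (injective_iff_map_eq_zero f).mpr fun y hy =>
    Subtype.ext (EigenvalueP.injOn_sub Lk hV h2 hdet y.2
      (sub_eq_zero.mp (congrArg Subtype.val hy)))
  obtain ⟨y, hy⟩ := Finite.injective_iff_surjective.mp hf ⟨x, hx⟩
  exact ⟨y, y.2, congrArg Subtype.val hy⟩

end ResidualPart

section InvariantFunctional

variable {G J : Type} [Group G] [AddCommGroup J] [DistribMulAction G J]

/-- The action on a stable subgroup. -/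
private def stableAct (V : AddSubgroup J) (hV : ∀ g : G, ∀ x ∈ V, g • x ∈ V) :
    G →* AddMonoid.End V where
  toFun s := AddMonoidHom.mk' (fun z => ⟨s • (z : J), hV s _ z.2⟩)
    fun _ _ => Subtype.ext (smul_add (A := J) s _ _)
  map_one' := DFunLike.ext _ _ fun _ => Subtype.ext (one_smul _ _)
  map_mul' s t := DFunLike.ext _ _ fun _ => Subtype.ext (mul_smul s t _)

/-- Outside the span of the differences `s z - z`, `s ∈ I`, an invariant functional is nonzero. -/
private theorem exists_invariant_functional {p : ℕ} [Fact p.Prime] {V : AddSubgroup J}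
    (hV : ∀ g : G, ∀ x ∈ V, g • x ∈ V) (htor : ∀ x ∈ V, p • x = 0) (I : Set G) {x : J}
    (hx : x ∈ V) (hxU : x ∉ AddSubgroup.closure {y | ∃ s ∈ I, ∃ z ∈ V, y = s • z - z}) :
    ∃ φ : V →+ ZMod p, φ ⟨x, hx⟩ ≠ 0 ∧ ∀ s ∈ I, ∀ z, φ (stableAct V hV s z) = φ z := by
  set U := (AddSubgroup.closure {y | ∃ s ∈ I, ∃ z ∈ V, y = s • z - z}).addSubgroupOf V
  have : Module (ZMod p) (V ⧸ U) := AddCommGroup.zmodModule fun q => by
    induction q using QuotientAddGroup.induction_on with
    | _ z =>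
      rw [← QuotientAddGroup.mk_nsmul, show p • z = 0 from Subtype.ext (htor _ z.2)]
      rfl
  have hq : (QuotientAddGroup.mk (⟨x, hx⟩ : V) : V ⧸ U) ≠ 0 := fun h0 =>
    hxU ((QuotientAddGroup.eq_zero_iff (N := U) (⟨x, hx⟩ : V)).mp h0)
  obtain ⟨ψ, hψ⟩ : ∃ ψ : Module.Dual (ZMod p) (V ⧸ U), ψ (QuotientAddGroup.mk ⟨x, hx⟩) ≠ 0 := by
    by_contra! hc
    exact hq ((Module.forall_dual_apply_eq_zero_iff (ZMod p) _).mp hc)
  refine ⟨ψ.toAddMonoidHom.comp (QuotientAddGroup.mk' U), hψ, fun s hs z => ?_⟩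
  show ψ (QuotientAddGroup.mk' U _) = ψ (QuotientAddGroup.mk' U z)
  congr 1
  refine (QuotientAddGroup.mk'_eq_mk' U).mpr ⟨z - stableAct V hV s z, ?_, add_sub_cancel _ _⟩
  rw [← neg_sub]
  exact neg_mem (AddSubgroup.subset_closure ⟨s, hs, z, z.2, rfl⟩)

/-- A common power of all elements acts trivially on a finite group. -/
private theorem exists_pow_act_eq_one {M : Type} [AddCommGroup M] [Finite M]
    (f : G →* AddMonoid.End M) : ∃ d, 0 < d ∧ ∀ g, f (g ^ d) = 1 := by
  have : Finite (AddMonoid.End M) := Finite.of_injective _ DFunLike.coe_injective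
  exact ⟨Nat.card (AddMonoid.End M)ˣ, Nat.card_pos, fun g => by
    rw [map_pow, ← MonoidHom.coe_toHomUnits f g, ← Units.val_pow_eq_pow_val, pow_card_eq_one',
      Units.val_one]⟩

end InvariantFunctional

section Frame

variable {k : Type} [Field k]

/-- A matrix in the frame `g`. -/
private abbrev frameMat (g : GL (Fin 2) k) (P : Matrix (Fin 2) (Fin 2) k) :
    Matrix (Fin 2) (Fin 2) k :=
  (g : Matrix (Fin 2) (Fin 2) k) * P * (g⁻¹ : GL (Fin 2) k)

variable {g : GL (Fin 2) k}

/-- Triangular with lower diagonal entry `1`, the upper diagonal entry is the determinant. -/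
private theorem frameMat_zero_zero {P : Matrix (Fin 2) (Fin 2) k} (h10 : frameMat g P 1 0 = 0)
    (h11 : frameMat g P 1 1 = 1) : frameMat g P 0 0 = P.det := by
  simp only [frameMat] at h10 h11 ⊢
  rw [← Matrix.det_units_conj g P, Matrix.det_fin_two, h10, h11, mul_one, mul_zero, sub_zero]

/-- In the common triangular frame, `Q - n` kills the image of `T - 1`. -/
private theorem sub_smul_mul_sub_eq_zero {Q T : Matrix (Fin 2) (Fin 2) k} {n : k}
    (hQ10 : frameMat g Q 1 0 = 0) (hQ00 : frameMat g Q 0 0 = n) (hT10 : frameMat g T 1 0 = 0)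
    (hT11 : frameMat g T 1 1 = 1) : (Q - n • 1) * (T - 1) = 0 := by
  refine (Units.mul_right_eq_zero g).mp ((Units.mul_left_eq_zero g⁻¹).mp ?_)
  have e : (g : Matrix (Fin 2) (Fin 2) k) * ((Q - n • 1) * (T - 1)) * (g⁻¹ : GL (Fin 2) k) =
      (frameMat g Q - n • 1) * (frameMat g T - 1) := by
    simp only [frameMat, mul_sub, sub_mul, mul_smul_comm, smul_mul_assoc, mul_one, one_mul,
      mul_assoc, Units.inv_mul_cancel_left, Units.mul_inv]
  rw [e]
  generalize frameMat g Q = Q' at hQ10 hQ00 ⊢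
  generalize frameMat g T = T' at hT10 hT11 ⊢
  ext i j
  fin_cases i <;> fin_cases j <;>
    simp [Matrix.mul_apply, Fin.sum_univ_two, hQ10, hQ00, hT10, hT11]

/-- A multiple of `Q - 1` moves `P` off the eigenvalue `a`. -/
private theorem exists_det_ne_zero {P Q : Matrix (Fin 2) (Fin 2) k} {ε n a : k}
    (hP10 : frameMat g P 1 0 = 0) (hP11 : frameMat g P 1 1 = ε) (hQ10 : frameMat g Q 1 0 = 0)
    (hQ11 : frameMat g Q 1 1 = 1) (hQ00 : frameMat g Q 0 0 = n) (hn : n ≠ 1) (ha : a ≠ ε) :
    ∃ t : ℕ, (P + (t : k) • (Q - 1) - a • 1).det ≠ 0 := by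
  obtain ⟨t, ht⟩ : ∃ t : ℕ, frameMat g P 0 0 - a + (t : k) * (n - 1) ≠ 0 := by
    by_cases h0 : frameMat g P 0 0 - a = 0
    · exact ⟨1, by rw [h0, zero_add, Nat.cast_one, one_mul]; exact sub_ne_zero.mpr hn⟩
    · exact ⟨0, by rw [Nat.cast_zero, zero_mul, add_zero]; exact h0⟩
  refine ⟨t, ?_⟩
  rw [← Matrix.det_units_conj g]
  have e : (g : Matrix (Fin 2) (Fin 2) k) * (P + (t : k) • (Q - 1) - a • 1) *
      (g⁻¹ : GL (Fin 2) k) = frameMat g P + (t : k) • (frameMat g Q - 1) - a • 1 := by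
    simp only [frameMat, mul_add, add_mul, mul_sub, sub_mul, mul_smul_comm, smul_mul_assoc,
      mul_one, Units.mul_inv]
  rw [e, Matrix.det_fin_two]
  simp only [Matrix.sub_apply, Matrix.add_apply, Matrix.smul_apply, Matrix.one_apply_eq,
    ne_eq, zero_ne_one, not_false_eq_true, Matrix.one_apply_ne, one_ne_zero, smul_eq_mul,
    mul_zero, sub_zero, mul_one, hP10, hQ10, add_zero, hP11, hQ11, sub_self, hQ00]
  refine mul_ne_zero ?_ (sub_ne_zero.mpr ha.symm)
  intro h; exact ht (by rw [← h]; ring)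

end Frame

variable (p : ℕ) [Fact p.Prime] {O' : Type} [CommRing O'] [IsDomain O'] [IsDiscreteValuationRing O']
  [IsAdicComplete (maximalIdeal O') O'] [Finite (ResidueField O')]

section LocalFacts

variable {p}

omit [IsAdicComplete (maximalIdeal O') O'] [Finite (ResidueField O')] in
/-- An odd residue characteristic leaves `2` a unit. -/
private theorem isUnit_two_of_ne_two (hp2 : p ≠ 2)
    (hpO : (p : O') ∈ maximalIdeal O') : IsUnit (2 : O') :=
  notMem_maximalIdeal.mp fun h => by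
    obtain ⟨a, b, hab⟩ := (Int.isCoprime_iff_gcd_eq_one (m := (p : ℤ)) (n := (2 : ℤ))).mpr
      ((Int.gcd_natCast_natCast p 2).trans
        ((Nat.coprime_primes Fact.out Nat.prime_two).mpr hp2))
    refine (maximalIdeal.isMaximal O').ne_top ((Ideal.eq_top_iff_one _).mpr ?_)
    have := add_mem (Ideal.mul_mem_left _ (a : O') hpO) (Ideal.mul_mem_left _ (b : O') h)
    have e : (a : O') * (p : O') + (b : O') * 2 = 1 := by
      exact_mod_cast congrArg (Int.cast (R := O')) hab
    rwa [e] at this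

omit [IsAdicComplete (maximalIdeal O') O'] [Finite (ResidueField O')] in
/-- A matrix is invertible when its residual determinant is nonzero. -/
private theorem isUnit_det_of_residue {P : Matrix (Fin 2) (Fin 2) O'}
    (hP : (P.map (residue O')).det ≠ 0) : IsUnit P.det := by
  rw [← RingHom.mapMatrix_apply, ← RingHom.map_det, Ne, residue_eq_zero_iff] at hP
  exact notMem_maximalIdeal.mp hP

omit [Finite (ResidueField O')] in
/-- The residual determinant is the value of the cyclotomic character. -/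
private theorem det_residual_eq_chiNat {ρ : MatRep O'} {hpO : (p : O') ∈ maximalIdeal O'}
    {σ : GalQ} (hdet : (ρ σ).det = padicTo hpO (cyc p σ)) :
    (mapRep (residue O') ρ σ).det = (chiNat (cyc p) 1 σ : ResidueField O') := by
  show ((ρ σ).map (residue O')).det = _
  rw [← RingHom.mapMatrix_apply, ← RingHom.map_det, hdet, ← map_natCast (residue O'),
    ← sub_eq_zero, ← map_sub, residue_eq_zero_iff]
  have := padicTo_sub_mem hpO 1 (cyc p σ)
  rwa [pow_one] at this

omit [IsAdicComplete (maximalIdeal O') O'] [Finite (ResidueField O')] in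
/-- A residually nontrivial cyclotomic value stays nontrivial in the residue field. -/
private theorem natCast_chiNat_ne_one (hpO : (p : O') ∈ maximalIdeal O') {σ : GalQ}
    (hσ : PadicInt.toZMod (cyc p σ) ≠ 1) : (chiNat (cyc p) 1 σ : ResidueField O') ≠ 1 :=
  fun h => hσ (by
    have hn : (chiNat (cyc p) 1 σ : ZMod p) = PadicInt.toZMod (cyc p σ) := by
      have h1 : PadicInt.toZMod (cyc p σ - (chiNat (cyc p) 1 σ : ℤ_[p])) = 0 := by
        rw [← RingHom.mem_ker, PadicInt.ker_toZMod, PadicInt.maximalIdeal_eq_span_p,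
          ← pow_one (p : ℤ_[p]), ← PadicInt.ker_toZModPow, RingHom.mem_ker, map_sub, map_natCast,
          natCast_chiNat, sub_self]
      rw [map_sub, map_natCast, sub_eq_zero] at h1
      exact h1.symm
    have : CharP (ResidueField O') p := (CharP.charP_iff_prime_eq_zero Fact.out).mpr (by
      rw [← map_natCast (residue O'), residue_eq_zero_iff]; exact hpO)
    rw [← hn, ← Nat.cast_one (R := ZMod p), ZMod.natCast_eq_natCast_iff]
    exact (CharP.natCast_eq_natCast (ResidueField O') p).mp (by rw [h, Nat.cast_one]))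

omit [IsAdicComplete (maximalIdeal O') O'] [Finite (ResidueField O')] in
/-- `Φ + t (σ₀ - 1) - a` has invertible matrix for a suitable `t`. -/
private theorem exists_isUnit_det_sub {ρ : MatRep O'} {Φ σ₀ : GalQ}
    {g : GL (Fin 2) (ResidueField O')} {ε n : ResidueField O'} {a : O'}
    (hΦ10 : frameMat g (mapRep (residue O') ρ Φ) 1 0 = 0)
    (hΦ11 : frameMat g (mapRep (residue O') ρ Φ) 1 1 = ε)
    (hσ10 : frameMat g (mapRep (residue O') ρ σ₀) 1 0 = 0)
    (hσ11 : frameMat g (mapRep (residue O') ρ σ₀) 1 1 = 1)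
    (hσ00 : frameMat g (mapRep (residue O') ρ σ₀) 0 0 = n) (hn : n ≠ 1)
    (ha : residue O' a ≠ ε) :
    ∃ t : ℕ, IsUnit (Transfer.mat GalQ O' ρ (MonoidAlgebra.single Φ 1 +
      (t : ℤ) • (MonoidAlgebra.single σ₀ 1 - 1)) - a • 1).det := by
  obtain ⟨t, ht⟩ := exists_det_ne_zero hΦ10 hΦ11 hσ10 hσ11 hσ00 hn ha
  refine ⟨t, isUnit_det_of_residue fun h0 => ht (Eq.trans (congrArg Matrix.det ?_) h0)⟩
  rw [← RingHom.mapMatrix_apply]
  simp only [map_sub, map_add, map_zsmul, map_one, Transfer.mat_single, one_smul]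
  rw [natCast_zsmul, Nat.cast_smul_eq_nsmul]
  congr 1
  ext i j
  by_cases hij : i = j <;> simp [hij]

omit [IsAdicComplete (maximalIdeal O') O'] [Finite (ResidueField O')] in
/-- The matrix condition for the differences over inertia. -/
private theorem map_sub_smul_mul_sub_eq_zero {ρ : MatRep O'} {σ₀ τ : GalQ}
    {g : GL (Fin 2) (ResidueField O')} {n : ℕ}
    (hσ10 : frameMat g (mapRep (residue O') ρ σ₀) 1 0 = 0)
    (hσ00 : frameMat g (mapRep (residue O') ρ σ₀) 0 0 = n)
    (hτ10 : frameMat g (mapRep (residue O') ρ τ) 1 0 = 0)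
    (hτ11 : frameMat g (mapRep (residue O') ρ τ) 1 1 = 1) :
    ((ρ σ₀ - (n : O') • 1) * (ρ τ - 1)).map (residue O') = 0 := by
  rw [← RingHom.mapMatrix_apply, map_mul, map_sub, map_sub, map_one, Nat.cast_smul_eq_nsmul,
    map_nsmul, map_one, ← Nat.cast_smul_eq_nsmul (ResidueField O')]
  exact sub_smul_mul_sub_eq_zero hσ10 hσ00 hτ10 hτ11

/-- Reduction kills the residual part, on which `Φ + t (σ₀ - 1) - T_p` is surjective. -/
private theorem reduction_eq_zero_of_residual {L : ℕ} [NeZero L] (hpL : ¬ p ∣ L)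
    {A : ValuationSubring Qbar} (hA : A.LiesOverPrime p) {h : ReductionInputsModL A L}
    (hI : CongruenceRel.FibreInputs A L (placeReductionModL h)) {R : Type} [CommRing R]
    [Module R (JZero L)] [SMulCommClass GalQ R (JZero L)] {lam : R →+* O'} {c : ℕ}
    {hpO : (p : O') ∈ maximalIdeal O'} {ρ : MatRep O'}
    (Lk : Transfer.Linked (J := JZero L) (cyc p) lam hpO c ρ)
    (hV : EigenvalueP.IsResidual (G := GalQ) p lam (residualPart (J := JZero L) p lam))
    (h2 : IsUnit (2 : O')) {Φ σ₀ : GalQ}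
    (hΦ : A.IsFrobeniusAt Φ p) (hσ₀ : σ₀ ∈ A.inertiaSubgroupIn ℚ) {r : R}
    (hr : ∀ x, r • x = heckeOperatorBar L ⟨p, (Fact.out : p.Prime)⟩ x) {t : ℕ}
    (hdet : IsUnit (Transfer.mat GalQ O' ρ (MonoidAlgebra.single Φ 1 +
      (t : ℤ) • (MonoidAlgebra.single σ₀ 1 - 1)) - lam r • 1).det)
    {x : JZero L} (hx : x ∈ residualPart p lam) : reductionModL A L x = 0 := by
  set X : MonoidAlgebra ℤ GalQ :=
    MonoidAlgebra.single Φ 1 + (t : ℤ) • (MonoidAlgebra.single σ₀ 1 - 1) with hX
  obtain ⟨y, hy, rfl⟩ := exists_act_sub_eq Lk hV h2 hdet hx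
  have hact : Transfer.act GalQ (JZero L) X y = Φ • y + (t : ℤ) • (σ₀ • y - y) := by
    simp only [hX, map_add, map_zsmul, map_sub, map_one]
    show Transfer.act GalQ (JZero L) (MonoidAlgebra.single Φ 1) y + (t : ℤ) •
      (Transfer.act GalQ (JZero L) (MonoidAlgebra.single σ₀ 1) y - y) = _
    rw [Transfer.act_single, Transfer.act_single, one_smul, one_smul]
  rw [hact, hr, map_sub, map_add, map_zsmul, map_sub,
    reduction_frobenius_eq_hecke hpL hA hI hΦ (hV.torsion _ hy),
    CongruenceRel.reduction_inertia hI hσ₀, sub_self, smul_zero, add_zero, sub_self]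

omit [Finite (ResidueField O')] in
/-- The representation has the trace and determinant of every linked attached trace. -/
private theorem trace_and_det_eq_of_link {L : ℕ} [NeZero L] {S : Finset ℕ}
    {θ : CuspForm.heckeAlgebra L 2 (S : Set ℕ) →+* O'} (h2 : IsUnit (2 : O'))
    {hpO : (p : O') ∈ maximalIdeal O'}
    {Tr : AttachedTrace L p (S : Set ℕ) (maximalIdeal O') θ} {c : ℕ}
    (hlink : TraceLink hpO Tr c) (T : AttachedTrace L p (S : Set ℕ) (maximalIdeal O') θ)
    {ρ : MatRep O'}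
    (hρ : MatCont ρ) (htr : ∀ σ, (ρ σ).trace = T.f σ) :
    (∀ g, (ρ g).trace = Tr.f g) ∧ ∀ g, (ρ g).det = padicTo hpO (cyc p g) := by
  have htrA : ∀ g, (ρ g).trace = Tr.f g := trace_eq_attached frobeniusDivisions Tr ρ hρ
    fun ℓ hℓ hℓN hℓS hℓp P hP σ hσ => by
      obtain ⟨h1, h2'⟩ := T.frob ℓ hℓ hℓN hℓS hℓp P hP σ hσ
      exact ⟨(htr σ).trans h1, (SemistableHecke.det_eq_of_trace_eq
        (fun a ha => h2.mul_right_eq_zero.mp ha) T ρ htr σ).trans h2'⟩
  exact ⟨htrA, fun g => (SemistableHecke.det_eq_of_trace_eq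
    (fun a ha => h2.mul_right_eq_zero.mp ha) Tr ρ htrA g).trans (hlink.det_eq g)⟩

end LocalFacts

/-- **The eigenvalue of `T_p` of a strictly ordinary residual representation.** -/
theorem eigenvalue_p_of_residual {L : ℕ} [NeZero L] (hp2 : p ≠ 2)
    (hpO : (p : O') ∈ maximalIdeal O') (hpL : ¬ p ∣ L) (S : Finset ℕ) (hpS : p ∉ S) (hp : p.Prime)
    (θ : CuspForm.heckeAlgebra L 2 (S : Set ℕ) →+* O')
    (T : AttachedTrace L p (S : Set ℕ) (maximalIdeal O') θ) (ρ : MatRep O') (hρ : MatCont ρ)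
    (htr : ∀ σ, (ρ σ).trace = T.f σ) (hirr : AbsIrreducibleOn (mapRep (residue O') ρ) ⊤)
    (ε : ResidueField O') (hstr : StrictAt (mapRep (residue O') ρ) p ε) :
    residue O' (θ (CuspForm.heckeAlgebra.T hp hpL hpS)) = ε := by
  classical
  have : NeZero p := ⟨hp.ne_zero⟩
  by_contra hne
  let := heckeModuleBar L
  have hJ := jacobianInputs L hp
  have := hJ.smulComm
  have h2 := isUnit_two_of_ne_two hp2 hpO
  obtain ⟨Tr, c, hlink⟩ :=
    exists_attachedTrace_link hJ frobeniusDivisions S.finite_toSet (maximalIdeal O') hpO θ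
  obtain ⟨htrA, hdetA⟩ := trace_and_det_eq_of_link h2 hlink T hρ htr
  let R := GoodRing L (↑S : Set ℕ)
  let : Module R (JZero L) := Module.compHom (JZero L) (goodIncl L ↑S)
  have : SMulCommClass GalQ R (JZero L) :=
    ⟨fun g r x => (smul_comm g (goodIncl L (↑S : Set ℕ) r) x : _)⟩
  let lam : R →+* O' := θ.comp (goodTheta L ↑S)
  have Lk : Transfer.Linked (J := JZero L) (cyc p) lam hpO c ρ :=
    ⟨hdetA, hlink.exists_wit, fun k g t ht => by rw [htrA]; exact hlink.spec k g t ht, hlink.kill⟩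
  have hfin : {x : JZero L | p • x = 0}.Finite := (hJ.finite_torsion 1).subset fun x hx => by
    rw [Set.mem_ofPred_eq, pow_one]; exact hx
  have hV := isResidual_residualPart (G := GalQ) hfin lam
  -- local data in a strict frame at `p`
  set A := padicPlace p
  have hA : A.LiesOverPrime p := TWPrimes.padicPlace_liesOverPrime p
  obtain ⟨g, hg⟩ := hstr A hA
  obtain ⟨σ₀, hσ₀, hσ₀1⟩ := TateLocal.exists_inertia_cyc hp2 hA
  have hσ₀d := (Density.mem_inertiaSubgroupIn_iff.mp hσ₀).1
  obtain ⟨h10, h11, -⟩ := hg σ₀ hσ₀d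
  have hn1 := natCast_chiNat_ne_one hpO hσ₀1
  have h00 := (frameMat_zero_zero h10 (h11 hσ₀)).trans (det_residual_eq_chiNat (hdetA σ₀))
  obtain ⟨σ, hσ⟩ := exists_commutator_det_ne_zero (mapRep (residue O') ρ)
    (fun v hv => hirr _ (RingHom.id _) v fun τ _ => by simpa using hv τ) g h10
    (fun h => hn1 (h00.symm.trans (h.trans (h11 hσ₀))))
  have hC : IsUnit (ρ σ * ρ σ₀ - ρ σ₀ * ρ σ).det := isUnit_det_of_residue (by
    rw [← RingHom.mapMatrix_apply, map_sub, map_mul, map_mul]; exact hσ)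
  -- reduction kills the residual part
  obtain ⟨Φ, hΦ⟩ := Density.exists_isFrobeniusAt A hp hA
  obtain ⟨hΦ10, -, hΦ11⟩ := hg Φ (Density.isFrobeniusAt_iff.mp hΦ).1
  let i : GoodPrime L (↑S : Set ℕ) := ⟨⟨p, hp⟩, hpL, hpS⟩
  let r : R := MvPolynomial.X i
  have hlamr : lam r = θ (CuspForm.heckeAlgebra.T hp hpL hpS) := by
    show θ (goodTheta L (↑S : Set ℕ) (MvPolynomial.X i)) = _
    rw [goodTheta, MvPolynomial.eval₂Hom_X']
  have hrx : ∀ x, r • x = heckeOperatorBar L ⟨p, hp⟩ x := fun x => by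
    show goodIncl L ↑S r • x = _
    rw [show goodIncl L (↑S : Set ℕ) r = heckeGen (⟨p, hp⟩ : Nat.Primes) by simp [goodIncl, r, i]]
    exact heckeModuleBar_heckeGen_smul (HeckeJacobian.heckeOperatorsCommuteBar L) _ x
  obtain ⟨t, ht⟩ := exists_isUnit_det_sub (a := lam r) hΦ10 (hΦ11 hΦ) h10 (h11 hσ₀) h00 hn1
    (by rwa [hlamr])
  obtain ⟨hred, hI⟩ := CongruenceRel.fibreInputs L hp hpL A hA
  -- a functional invariant under inertia
  obtain ⟨x, hxV, hxU⟩ := EigenvalueP.exists_notMem_closure Lk hV h2 hC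
    (A.inertiaSubgroupIn ℚ : Set GalQ) (fun τ hτ =>
      have h := hg τ (Density.mem_inertiaSubgroupIn_iff.mp hτ).1
      map_sub_smul_mul_sub_eq_zero h10 h00 h.1 (h.2.1 hτ))
    (residualPart_ne_bot hfin lam Lk.kill)
  have hx0 := reduction_eq_zero_of_residual hpL hA hI Lk hV h2 hΦ hσ₀ hrx ht hxV
  obtain ⟨φ, hφ, hφI⟩ := exists_invariant_functional hV.stable hV.torsion _ hxV hxU
  -- which vanishes at `x` on the pulled-back flat model
  have := hV.finite.to_subtype
  obtain ⟨d, hd, hd1⟩ := exists_pow_act_eq_one (stableAct _ hV.stable)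
  obtain ⟨H₀, h₀, hH₀⟩ := exists_model_reduction hpL hA
    (GoodReduction.x0GoodReduction L hp hpL A hA) hp.ne_zero
  let ι : residualPart (J := JZero L) p lam →+ jTors L p :=
    AddMonoidHom.mk' (fun z => ⟨(z : JZero L), hV.torsion _ z.2⟩) fun _ _ => rfl
  have h₀' := FlatBound.isFlatModel_map_pullback (actN := stableAct _ hV.stable) h₀ ι
    (fun a b h => Subtype.ext (congrArg Subtype.val h :)) fun s z => rfl
  refine hφ (FlatBound.functional_eq_zero_of_unramified hp2 h₀' φ hφI hd hΦ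
    (fun z => by rw [hd1]; rfl) ?_)
  rintro _ ⟨f, hf, rfl⟩
  show f (ι ⟨x, hxV⟩) - f (ι 0) ∈ A.nonunits
  rw [map_zero]
  exact hH₀ _ hx0 f hf

end FLTAgent.ModularityLifting
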