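import Fermat.Agent.SemistableHecke.Transfer
import Mathlib.RingTheory.LocalRing.ResidueField.Basic
import Mathlib.FieldTheory.Finite.Basic
import Mathlib.GroupTheory.OrderOfElement

/-!
# Classes killed by a residual eigenvalue system

On a finite stable group of `p`-torsion classes killed by the kernel of a residual eigenvalue
system, the group ring acts through the residual matrices.
-/

set_option autoImplicit false
set_option linter.unusedSectionVars false

noncomputable section

namespace FLTAgent.EigenvalueP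

open FLTAgent.GaloisAttach FLTAgent.SemistableHecke IsLocalRing MonoidAlgebra Matrix

variable {G R J A : Type*} [Group G] [CommRing R] [AddCommGroup J] [Module R J]
  [DistribMulAction G J] [SMulCommClass G R J] [CommRing A] [IsLocalRing A]
variable {p : ℕ} [Fact p.Prime] [IsAdicComplete (maximalIdeal A) A]
  {hpI : (p : A) ∈ maximalIdeal A}

/-- A finite group of `p`-torsion classes stable under `G`, killed by the residual kernel. -/
structure IsResidual (p : ℕ) (lam : R →+* A) (V : AddSubgroup J) : Prop where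
  finite : (V : Set J).Finite
  torsion : ∀ x ∈ V, p • x = 0
  stable : ∀ (g : G), ∀ x ∈ V, g • x ∈ V
  killed : ∀ r : R, lam r ∈ maximalIdeal A → ∀ x ∈ V, r • x = 0

variable {χ : G →* ℤ_[p]} {lam : R →+* A} {c : ℕ} {ρ : G →* Matrix (Fin 2) (Fin 2) A}
  (L : Transfer.Linked (J := J) χ lam hpI c ρ)
  {V : AddSubgroup J} (hV : IsResidual (G := G) p lam V)

include hV

theorem act_mem (X : MonoidAlgebra ℤ G) {x : J} (hx : x ∈ V) : Transfer.act G J X x ∈ V :=
  Transfer.act_mem X V fun g => hV.stable g x hx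

theorem smul_eq_of_sub_mem {r r' : R} (h : lam r - lam r' ∈ maximalIdeal A) {x : J} (hx : x ∈ V) :
    r • x = r' • x := by
  rw [← sub_eq_zero, ← sub_smul]
  exact hV.killed _ (by rwa [map_sub]) x hx

theorem pow_torsion (m : ℕ) {x : J} (hx : x ∈ V) : (p ^ (m + 1)) • x = 0 := by
  rw [pow_succ, mul_nsmul', hV.torsion x hx, smul_zero]

theorem eq_zero_of_smul_eq_zero [Finite (ResidueField A)] {r : R} (hr : lam r ∉ maximalIdeal A)
    {x : J} (hx : x ∈ V) (h : r • x = 0) : x = 0 := by
  classical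
  have := Fintype.ofFinite (ResidueField A)
  have hne : residue A (lam r) ≠ 0 := fun h0 => hr ((residue_eq_zero_iff _).mp h0)
  have hq : 0 < Fintype.card (ResidueField A) - 1 :=
    Nat.sub_pos_of_lt Fintype.one_lt_card
  set q := Fintype.card (ResidueField A) - 1
  have h1 : lam (r ^ q) - lam 1 ∈ maximalIdeal A := by
    rw [← residue_eq_zero_iff, map_sub, map_pow, map_pow, map_one, map_one,
      FiniteField.pow_card_sub_one_eq_one _ hne, sub_self]
  have h2 := smul_eq_of_sub_mem hV h1 hx
  rw [one_smul, show q = q - 1 + 1 by omega, pow_succ, mul_smul, h, smul_zero] at h2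
  exact h2.symm

omit hV in
theorem chiNat_mul_smul (n : ℕ) (g h : G) {x : J} (hx : (p ^ n) • x = 0) :
    chiNat χ n (g * h) • x = chiNat χ n g • chiNat χ n h • x := by
  rw [← mul_smul]
  refine nsmul_eq_of_natCast_eq ?_ hx
  rw [Nat.cast_mul, natCast_chiNat, natCast_chiNat, natCast_chiNat, map_mul, map_mul]

omit hV in
theorem chiNat_one_smul (n : ℕ) {x : J} (hx : (p ^ n) • x = 0) : chiNat χ n 1 • x = x := by
  conv_rhs => rw [← one_nsmul x]
  refine nsmul_eq_of_natCast_eq ?_ hx
  rw [natCast_chiNat, map_one, map_one, Nat.cast_one]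

omit hV in
theorem actAdj_one (n : ℕ) {x : J} (hx : (p ^ n) • x = 0) :
    Transfer.actAdj (J := J) χ n (1 : MonoidAlgebra ℤ G) x = x := by
  rw [one_def, Transfer.actAdj_single, one_smul, inv_one, one_smul, chiNat_one_smul n hx]

omit hV in
/-- The adjoint reverses products. -/
theorem actAdj_mul (n : ℕ) (X Y : MonoidAlgebra ℤ G) {x : J} (hx : (p ^ n) • x = 0) :
    Transfer.actAdj χ n (X * Y) x = Transfer.actAdj χ n Y (Transfer.actAdj χ n X x) := by
  induction X using MonoidAlgebra.induction_on with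
  | of g =>
    induction Y using MonoidAlgebra.induction_on with
    | of h =>
      rw [← map_mul]
      simp only [MonoidAlgebra.of_apply, Transfer.actAdj_single, one_smul]
      rw [_root_.mul_inv_rev, mul_comm' g h n, smul_comm h⁻¹ (chiNat χ n g), ← mul_smul h⁻¹ g⁻¹,
        ← chiNat_mul_smul n h g (pow_nsmul_smul_zero (h⁻¹ * g⁻¹) hx)]
    | add Y Y' hY hY' =>
      rw [mul_add, map_add, map_add, Transfer.end_add, Transfer.end_add, hY, hY']
    | smul z Y hY =>
      rw [mul_smul_comm, map_zsmul, map_zsmul, Transfer.end_zsmul, Transfer.end_zsmul, hY]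
  | add X X' hX hX' =>
    rw [add_mul, map_add, map_add, Transfer.end_add, Transfer.end_add, hX, hX', map_add]
  | smul z X hX =>
    rw [smul_mul_assoc, map_zsmul, map_zsmul, Transfer.end_zsmul, Transfer.end_zsmul, hX,
      map_zsmul]
where
  mul_comm' (g h : G) (n : ℕ) : chiNat χ n (g * h) = chiNat χ n (h * g) := by
    unfold chiNat
    rw [map_mul χ g, map_mul χ h, mul_comm (χ g)]

variable [Finite (ResidueField A)]

include L in
/-- The scalar of `X adj Y + Y adj X` on `V`. -/
theorem exists_cross_on (X Y : MonoidAlgebra ℤ G) :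
    ∃ d : R, (∀ x ∈ V,
      Transfer.act G J X (Transfer.actAdj χ (1 + c) Y x) +
        Transfer.act G J Y (Transfer.actAdj χ (1 + c) X x) = d • x) ∧
      lam d - (Transfer.mat G A ρ X * Transfer.adjM (Transfer.mat G A ρ Y)).trace
        ∈ maximalIdeal A := by
  obtain ⟨d, hd, hl⟩ := Transfer.exists_cross L 1 X Y
  rw [pow_one] at hl
  exact ⟨d, fun x hx => hd x (by rw [add_comm 1 c]; exact pow_torsion hV c hx), hl⟩

include L in
theorem exists_trace_on (X : MonoidAlgebra ℤ G) :
    ∃ d : R, (∀ x ∈ V, Transfer.act G J X x + Transfer.actAdj χ (1 + c) X x = d • x) ∧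
      lam d - (Transfer.mat G A ρ X).trace ∈ maximalIdeal A := by
  obtain ⟨d, hd, hl⟩ := exists_cross_on L hV X 1
  refine ⟨d, fun x hx => ?_, ?_⟩
  · rw [← hd x hx, actAdj_one (1 + c) (by rw [add_comm 1 c]; exact pow_torsion hV c hx), map_one,
      Transfer.end_one]
  · rwa [map_one, show Transfer.adjM (1 : Matrix (Fin 2) (Fin 2) A) = 1 by
      rw [Transfer.adjM_eq_adjugate, adjugate_one], mul_one] at hl

include L in
/-- `X - s` is injective on `V` when the residual matrix is invertible. -/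
theorem injOn_sub {X : MonoidAlgebra ℤ G} {s : R} (h2 : IsUnit (2 : A))
    (hdet : IsUnit (Transfer.mat G A ρ X - lam s • 1).det) {x : J} (hx : x ∈ V)
    (h : Transfer.act G J X x = s • x) : x = 0 := by
  obtain ⟨d₁, hd₁, hl₁⟩ := exists_cross_on L hV X X
  obtain ⟨d₂, hd₂, hl₂⟩ := exists_trace_on L hV X
  have hadj : Transfer.actAdj χ (1 + c) X x = (d₂ - s) • x := by
    rw [sub_smul, ← hd₂ x hx, h, add_sub_cancel_left]
  have e := hd₁ x hx
  rw [hadj, Transfer.act_smul, h, ← mul_smul, ← add_smul] at e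
  refine eq_zero_of_smul_eq_zero hV (r := (d₂ - s) * s + (d₂ - s) * s - d₁) ?_ hx (by
    rw [sub_smul, e, sub_self])
  intro hmem
  set P := Transfer.mat G A ρ X
  rw [Transfer.trace_mul_adjM_self] at hl₁
  have hdet' : (P - lam s • 1).det = P.det - lam s * P.trace + lam s * lam s := by
    simp [Matrix.det_fin_two, Matrix.trace_fin_two]
    ring
  have h3 : 2 * (P - lam s • 1).det ∈ maximalIdeal A := by
    have := sub_mem (sub_mem (Ideal.mul_mem_left _ (2 * lam s) hl₂) hl₁) hmem
    convert this using 1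
    rw [hdet', map_sub, map_add, map_mul, map_sub]
    ring
  exact (mem_maximalIdeal _).mp h3 (h2.mul hdet)

include L in
/-- Elements with residually zero matrix act by zero on `V`. -/
theorem act_eq_zero (h2 : IsUnit (2 : A)) {σ τ : G}
    (hC : IsUnit (ρ σ * ρ τ - ρ τ * ρ σ).det) {X : MonoidAlgebra ℤ G}
    (hX : (Transfer.mat G A ρ X).map (residue A) = 0) {x : J} (hx : x ∈ V) :
    Transfer.act G J X x = 0 := by
  have htor : ∀ {y : J}, y ∈ V → (p ^ (1 + c)) • y = 0 := fun hy => by
    rw [add_comm 1 c]; exact pow_torsion hV c hy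
  have hneg : ∀ Z : MonoidAlgebra ℤ G, (Transfer.mat G A ρ Z).map (residue A) = 0 →
      ∀ y ∈ V, Transfer.actAdj χ (1 + c) Z y = -Transfer.act G J Z y := fun Z hZ y hy => by
    obtain ⟨d, hd, hl⟩ := exists_trace_on L hV Z
    have htr : (Transfer.mat G A ρ Z).trace ∈ maximalIdeal A := by
      rw [← residue_eq_zero_iff, Matrix.trace_fin_two, map_add]
      have h0 := congrFun (congrFun hZ 0) 0
      have h1 := congrFun (congrFun hZ 1) 1
      simp only [Matrix.map_apply, Matrix.zero_apply] at h0 h1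
      rw [h0, h1, add_zero]
    have hd0 : d • y = 0 := hV.killed d (by
      have := add_mem hl htr; rwa [sub_add_cancel] at this) y hy
    have := hd y hy
    rw [hd0] at this
    exact eq_neg_of_add_eq_zero_right this
  have hK : ∀ Y : MonoidAlgebra ℤ G, (Transfer.mat G A ρ (X * Y)).map (residue A) = 0 := fun Y => by
    rw [map_mul, Matrix.map_mul, hX, zero_mul]
  have hswap : ∀ (Y : MonoidAlgebra ℤ G), ∀ y ∈ V, Transfer.act G J (X * Y) y =
      Transfer.actAdj χ (1 + c) Y (Transfer.act G J X y) := fun Y y hy => by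
    rw [← neg_eq_iff_eq_neg.mpr (hneg _ (hK Y) y hy), actAdj_mul (1 + c) X Y (htor hy),
      hneg X hX y hy, map_neg, neg_neg]
  have hcomm : ∀ (Y Z : MonoidAlgebra ℤ G), ∀ y ∈ V,
      Transfer.act G J (X * (Y * Z)) y = Transfer.act G J (X * (Z * Y)) y := fun Y Z y hy => by
    rw [hswap (Y * Z) y hy, actAdj_mul (1 + c) Y Z (htor (act_mem hV X hy)), ← hswap Y y hy]
    have e : Transfer.act G J (X * Y) y = Transfer.act G J X (Transfer.act G J Y y) := by
      rw [map_mul]; rfl
    rw [e, ← hswap Z _ (act_mem hV Y hy), ← Transfer.end_mul, ← map_mul, mul_assoc]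
  set Cg : MonoidAlgebra ℤ G := single σ 1 * single τ 1 - single τ 1 * single σ 1
  have hmat : Transfer.mat G A ρ Cg - lam 0 • 1 = ρ σ * ρ τ - ρ τ * ρ σ := by
    simp only [Cg, map_sub, map_mul, Transfer.mat_single, one_smul, map_zero, zero_smul, sub_zero]
  have hkill : ∀ y ∈ V, Transfer.act G J X (Transfer.act G J Cg y) = 0 := fun y hy => by
    rw [← Transfer.end_mul, ← map_mul, mul_sub, map_sub]
    show Transfer.act G J (X * _) y - Transfer.act G J (X * _) y = 0
    rw [hcomm _ _ y hy, sub_self]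
  have : Finite V := hV.finite.to_subtype
  let f : V →+ V := ((Transfer.act G J Cg).comp V.subtype).codRestrict V fun y => act_mem hV Cg y.2
  have hf : Function.Injective f := (injective_iff_map_eq_zero f).mpr fun y hy =>
    Subtype.ext (injOn_sub L hV (s := 0) h2 (by rwa [hmat]) y.2 (by
      rw [zero_smul]; exact congrArg Subtype.val hy))
  obtain ⟨y, hy⟩ := Finite.injective_iff_surjective.mp hf ⟨x, hx⟩
  rw [show x = Transfer.act G J Cg y from (congrArg Subtype.val hy).symm]
  exact hkill y y.2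

include L in
/-- The differences `τ x - x` over a set residually killed on the left by `ρ σ₀ - n` do not span
`V`. -/
theorem exists_notMem_closure (h2 : IsUnit (2 : A)) {σ σ₀ : G}
    (hC : IsUnit (ρ σ * ρ σ₀ - ρ σ₀ * ρ σ).det) {n : ℕ} (I : Set G)
    (hI : ∀ τ ∈ I, ((ρ σ₀ - (n : A) • 1) * (ρ τ - 1)).map (residue A) = 0) (hne : V ≠ ⊥) :
    ∃ x ∈ V, x ∉ AddSubgroup.closure {y | ∃ τ ∈ I, ∃ z ∈ V, y = τ • z - z} := by
  by_contra! hall
  refine hne ((AddSubgroup.eq_bot_iff_forall V).mpr fun x hx => ?_)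
  obtain ⟨Y, hY⟩ : ∃ Y, Transfer.mat G A ρ Y = ρ σ₀ - (n : A) • 1 :=
    ⟨single σ₀ 1 - single 1 (n : ℤ), by
      rw [map_sub, Transfer.mat_single, Transfer.mat_single, one_smul, map_one, natCast_zsmul,
        Nat.cast_smul_eq_nsmul]⟩
  have hYV : ∀ z ∈ V, Transfer.act G J Y z = 0 := fun z hz => by
    have hle : AddSubgroup.closure {y | ∃ τ ∈ I, ∃ z ∈ V, y = τ • z - z} ≤
        (Transfer.act G J Y).ker := by
      rw [AddSubgroup.closure_le]
      rintro _ ⟨τ, hτ, w, hw, rfl⟩
      show Transfer.act G J Y (τ • w - w) = 0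
      have h1 := act_eq_zero L hV h2 hC (X := Y * (single τ 1 - 1)) (by
        rw [map_mul, map_sub, Transfer.mat_single, one_smul, map_one, hY]
        exact hI τ hτ) hw
      rwa [map_mul, Transfer.end_mul, map_sub, map_one,
        show (Transfer.act G J (single τ 1) - 1) w = τ • w - w by
          show Transfer.act G J (single τ 1) w - w = _
          rw [Transfer.act_single, one_smul]] at h1
    exact hle (hall z hz)
  let Cg : MonoidAlgebra ℤ G := single σ 1 * Y - Y * single σ 1
  refine injOn_sub L hV (X := Cg) (s := 0) h2 ?_ hx ?_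
  · rw [map_zero, zero_smul, sub_zero, map_sub, map_mul, map_mul, hY, Transfer.mat_single, one_smul]
    convert hC using 2
    rw [mul_sub, sub_mul, mul_smul_comm, smul_mul_assoc, mul_one, one_mul]
    abel
  · rw [zero_smul, map_sub, map_mul, map_mul]
    show Transfer.act G J (single σ 1) (Transfer.act G J Y x) -
      Transfer.act G J Y (Transfer.act G J (single σ 1) x) = 0
    rw [hYV x hx, map_zero, hYV _ (act_mem hV _ hx), sub_zero]

omit hV in
/-- A finite module without elements killed by an ideal has an element of the ideal acting as the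
identity. -/
theorem exists_smul_eq_self (I : Ideal R) (W : Submodule R J) (hW : (W : Set J).Finite)
    (h : ∀ x ∈ W, (∀ r ∈ I, r • x = 0) → x = 0) : ∃ r ∈ I, ∀ x ∈ W, r • x = x := by
  classical
  have hidem : ∀ t : R, ∃ m : ℕ, 0 < m ∧ ∀ x ∈ W, t ^ m • t ^ m • x = t ^ m • x := fun t => by
    have : Finite W := hW.to_subtype
    obtain ⟨i, j, hne, he⟩ := Finite.exists_ne_map_eq_of_infinite
      fun m : ℕ => fun x : W => t ^ m • x
    wlog hij : i < j generalizing i j
    · exact this j i hne.symm he.symm (lt_of_le_of_ne (not_lt.mp hij) hne.symm)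
    obtain ⟨d, rfl⟩ := Nat.exists_eq_add_of_le hij.le
    have hd : 0 < d := by omega
    set m := (i + 1) * d
    have him : i ≤ m := le_trans (by omega) (Nat.le_mul_of_pos_right (i + 1) hd)
    have hper : ∀ k, ∀ x ∈ W, t ^ (m + k * d) • x = t ^ m • x := fun k => by
      induction k with
      | zero => simp
      | succ k ih =>
        intro x hx
        have e := congrArg Subtype.val (congrFun he ⟨x, hx⟩)
        simp only [SetLike.val_smul] at e
        obtain ⟨l, hl⟩ := Nat.exists_eq_add_of_le (le_add_right (c := k * d) him)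
        rw [show m + (k + 1) * d = l + (i + d) by rw [Nat.succ_mul]; omega, pow_add, mul_smul, ← e,
          ← mul_smul, ← pow_add, add_comm l i, ← hl, ih x hx]
    exact ⟨m, mul_pos i.succ_pos hd, fun x hx => by
      rw [← mul_smul, ← pow_add]; exact hper (i + 1) x hx⟩
  let Ker : R → Set J := fun r => {x | x ∈ W ∧ r • x = 0}
  have hex : ∃ k, ∃ r ∈ I, (∀ x ∈ W, r • r • x = r • x) ∧ (Ker r).ncard = k :=
    ⟨_, 0, I.zero_mem, fun x _ => by simp, rfl⟩
  obtain ⟨r, hr, hidr, hcard⟩ := Nat.find_spec hex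
  refine ⟨r, hr, fun x hx => ?_⟩
  suffices hz : ∀ z ∈ W, r • z = 0 → z = 0 from sub_eq_zero.mp (hz _
    (sub_mem (W.smul_mem r hx) hx) (by rw [smul_sub, hidr x hx, sub_self]))
  by_contra! hK
  obtain ⟨z₀, hz₀W, hz₀r, hz₀⟩ := hK
  by_cases hall : ∀ t ∈ I, ∀ m : ℕ, (∀ x ∈ W, t ^ m • t ^ m • x = t ^ m • x) → 0 < m →
      ∀ z ∈ W, r • z = 0 → t ^ m • z = 0
  · let Orb : J → Set J := fun z => Set.range fun u : R => u • z
    have hfin : ∀ z ∈ W, (Orb z).Finite := fun z hz => hW.subset (by
      rintro _ ⟨u, rfl⟩; exact W.smul_mem u hz)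
    have hex' : ∃ k, ∃ z ∈ W, r • z = 0 ∧ z ≠ 0 ∧ (Orb z).ncard = k :=
      ⟨_, z₀, hz₀W, hz₀r, hz₀, rfl⟩
    obtain ⟨z, hz, hzr, hz0, hzc⟩ := Nat.find_spec hex'
    refine hz0 (h z hz fun t ht => by_contra fun htz => hz0 ?_)
    have hsub : Orb (t • z) ⊆ Orb z := by
      rintro _ ⟨u, rfl⟩
      exact ⟨u * t, mul_smul u t z⟩
    have heq : Orb (t • z) = Orb z := Set.eq_of_subset_of_ncard_le hsub (by
      rw [hzc]
      exact Nat.find_min' hex' ⟨t • z, W.smul_mem t hz, by rw [smul_comm, hzr, smul_zero], htz,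
        rfl⟩) (hfin z hz)
    obtain ⟨u, hu⟩ : z ∈ Orb (t • z) := heq ▸ (⟨1, one_smul R z⟩ : z ∈ Orb z)
    obtain ⟨m, hm, hid⟩ := hidem t
    have hpow : ∀ n : ℕ, (u * t) ^ n • z = z := fun n => by
      induction n with
      | zero => rw [pow_zero, one_smul]
      | succ n ih => rw [pow_succ, mul_smul, mul_smul u t, show u • t • z = z from hu, ih]
    rw [← hpow m, mul_pow, mul_smul, hall t ht m hid hm z hz hzr, smul_zero]
  push Not at hall
  obtain ⟨t, ht, m, hid, hm, z, hz, hzr, htz⟩ := hall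
  have he' : t ^ m ∈ I := I.pow_mem_of_mem ht m hm
  set s : R := r + t ^ m - r * t ^ m
  have hs : ∀ x : J, s • x = r • x + t ^ m • x - r • t ^ m • x := fun x => by
    rw [sub_smul, add_smul, mul_smul]
  have hrs : ∀ x ∈ W, r • s • x = r • x := fun x hx => by
    rw [hs, smul_sub, smul_add, hidr x hx, hidr _ (W.smul_mem _ hx), add_sub_cancel_right]
  have hes : ∀ x ∈ W, t ^ m • s • x = t ^ m • x := fun x hx => by
    rw [hs, smul_sub, smul_add, hid x hx, smul_comm (t ^ m) r, smul_comm (t ^ m) r, hid x hx,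
      add_sub_cancel_left]
  have hids : ∀ x ∈ W, s • s • x = s • x := fun x hx => by
    rw [hs (s • x), hrs x hx, hes x hx, ← hs]
  have hlt : (Ker s).ncard < (Ker r).ncard := Set.ncard_lt_ncard ⟨fun x ⟨hx, hsx⟩ =>
      ⟨hx, by rw [← hrs x hx, hsx, smul_zero]⟩, fun hsub => htz (by
        obtain ⟨-, hsz⟩ := hsub ⟨hz, hzr⟩
        rw [hs, hzr, smul_comm r (t ^ m), hzr, smul_zero, zero_add, sub_zero] at hsz
        exact hsz)⟩ (hW.subset fun x hx => hx.1)
  exact Nat.find_min hex (hcard ▸ hlt)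
    ⟨s, sub_mem (add_mem hr he') (I.mul_mem_left r he'), hids, rfl⟩

end FLTAgent.EigenvalueP
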